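import Mathlib

/-!
# The analytic `j`-function on the upper half plane: basic properties
-/

set_option autoImplicit false

open UpperHalfPlane ModularForm EisensteinSeries MatrixGroups CongruenceSubgroup
open scoped Manifold

namespace Fermat.Agent.Lib.AnalyticJ

local notation "Δ" => ModularForm.discriminant

/-- The analytic `j`-function `E₄³ / Δ`. -/
noncomputable def jFun (z : ℍ) : ℂ := E₄ z ^ 3 / Δ z

theorem jFun_def (z : ℍ) : jFun z = E₄ z ^ 3 / Δ z := rfl

theorem jFun_mul_discriminant (z : ℍ) : jFun z * Δ z = E₄ z ^ 3 := by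
  rw [jFun, div_mul_cancel₀ _ (discriminant_ne_zero z)]

theorem jFun_sub (z : ℍ) : jFun z - 1728 = E₆ z ^ 2 / Δ z := by
  have h := discriminant_eq_E₄_cube_sub_E₆_sq z
  have h0 := discriminant_ne_zero z
  rw [jFun]
  field_simp
  rw [h]
  ring

theorem jFun_eq_zero_iff (z : ℍ) : jFun z = 0 ↔ E₄ z = 0 := by
  rw [jFun, div_eq_zero_iff]
  simp [discriminant_ne_zero z]

theorem jFun_eq_1728_iff (z : ℍ) : jFun z = 1728 ↔ E₆ z = 0 := by
  rw [← sub_eq_zero, jFun_sub, div_eq_zero_iff]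
  simp [discriminant_ne_zero z]

theorem mdifferentiable_discriminant : MDiff (Δ : ℍ → ℂ) :=
  CuspForm.discriminant.holo'

theorem mdifferentiable_jFun : MDiff jFun := by
  have h1 : MDiff (fun z => E₄ z ^ 3) := (E₄.holo').pow 3
  rw [UpperHalfPlane.mdifferentiable_iff] at h1 ⊢
  have h2 := UpperHalfPlane.mdifferentiable_iff.mp mdifferentiable_discriminant
  exact h1.div h2 (fun x _ => discriminant_ne_zero _)

theorem E_smul {k : ℕ} (hk : 3 ≤ k) (γ : SL(2, ℤ)) (z : ℍ) :
    E hk (γ • z) = (denom γ z) ^ (k : ℤ) * E hk z := by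
  have : SlashInvariantFormClass (ModularForm 𝒮ℒ k) Γ(1) k :=
    CongruenceSubgroup.Gamma_one_coe_eq_SL ▸ inferInstance
  exact SlashInvariantForm.slash_action_eqn_SL'' (E hk) (CongruenceSubgroup.mem_Gamma_one γ) z

theorem discriminant_smul (γ : SL(2, ℤ)) (z : ℍ) :
    Δ (γ • z) = (denom γ z) ^ (12 : ℤ) * Δ z := by
  have : SlashInvariantFormClass (CuspForm 𝒮ℒ 12) Γ(1) 12 :=
    CongruenceSubgroup.Gamma_one_coe_eq_SL ▸ inferInstance
  exact SlashInvariantForm.slash_action_eqn_SL'' CuspForm.discriminant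
    (CongruenceSubgroup.mem_Gamma_one γ) z

/-- `j` is `SL(2, ℤ)`-invariant. -/
theorem jFun_smul (γ : SL(2, ℤ)) (z : ℍ) : jFun (γ • z) = jFun z := by
  have hd : denom γ z ≠ 0 := denom_ne_zero _ z
  rw [jFun, jFun, E_smul, discriminant_smul, mul_pow, ← zpow_natCast, ← zpow_mul]
  have : ((4 : ℕ) : ℤ) * ((3 : ℕ) : ℤ) = 12 := by norm_num
  rw [this, mul_div_mul_left _ _ (zpow_ne_zero _ hd)]

end Fermat.Agent.Lib.AnalyticJ
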