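import Fermat.Agent.Lib.AnalyticJ.Taylor
import Fermat.Agent.Lib.AnalyticJ.Basic
import Fermat.Prelude.Def_ModularCurve_X0

/-!
# The `q`-expansion of the analytic `j`-function is the formal series of the Prelude
-/

set_option autoImplicit false

open Filter Topology UpperHalfPlane ModularForm EisensteinSeries MatrixGroups

namespace Fermat.Agent.Lib.AnalyticJ

local notation "Δ" => ModularForm.discriminant
local notation "𝕢" => Function.Periodic.qParam

/-- The Euler product `∏ (1 - q^(n+1))` on the unit disc. -/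
noncomputable def eulerFun (q : ℂ) : ℂ := ∏' n : ℕ, (1 - q ^ (n + 1))

theorem differentiableOn_eulerFun : DifferentiableOn ℂ eulerFun (Metric.ball (0 : ℂ) 1) :=
  differentiableOn_tprod_one_sub_pow

theorem map_pentagonalSeries :
    (PowerSeries.pentagonalSeries ℤ).map (Int.castRingHom ℂ) = PowerSeries.pentagonalSeries ℂ := by
  ext m
  obtain ⟨s, hs1, hs2⟩ := ((PowerSeries.coeff_prod_one_sub_X_pow_eventually_eq ℤ m).and
    (PowerSeries.coeff_prod_one_sub_X_pow_eventually_eq ℂ m)).exists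
  rw [PowerSeries.coeff_map, ← hs1, ← hs2, ← PowerSeries.coeff_map, map_prod]
  simp

theorem taylorPS_eulerFun :
    taylorPS eulerFun = ModularCurve.etaProd.map (Int.castRingHom ℂ) := by
  rw [ModularCurve.etaProd, PowerSeries.WithPiTopology.tprod_one_sub_X_pow, map_pentagonalSeries]
  ext m
  have h1 := multipliableLocallyUniformlyOn_one_sub_pow.hasProdLocallyUniformlyOn
  rw [hasProdLocallyUniformlyOn_iff_tendstoLocallyUniformlyOn] at h1
  have h2 := tendsto_coeff_taylorPS (G := eulerFun) Metric.isOpen_ball (by simp)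
    (.of_forall fun s => ?_) h1 m
  · refine tendsto_nhds_unique h2 (tendsto_nhds_of_eventually_eq ?_)
    filter_upwards [PowerSeries.coeff_prod_one_sub_X_pow_eventually_eq ℂ m] with s hs
    rw [← hs]
    congr 1
    have : (fun x : ℂ => ∏ i ∈ s, (1 - x ^ (i + 1)))
        = fun x => (∏ i ∈ s, (1 - Polynomial.X ^ (i + 1) : Polynomial ℂ)).eval x := by
      ext x
      simp [Polynomial.eval_prod]
    rw [this, taylorPS_polynomial]
    have h3 := map_prod (Polynomial.coeToPowerSeries.ringHom (R := ℂ))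
      (fun i : ℕ => (1 - Polynomial.X ^ (i + 1) : Polynomial ℂ)) s
    simp only [Polynomial.coeToPowerSeries.ringHom_apply] at h3
    rw [h3]
    simp
  · simpa [Finset.prod_fn] using
      DifferentiableOn.finsetProd (u := s) (f := fun (i : ℕ) (x : ℂ) => 1 - x ^ (i + 1))
        (s := Metric.ball (0 : ℂ) 1) (fun _ _ ↦ by fun_prop)

theorem eulerFun_zero : eulerFun 0 = 1 := by
  simp [eulerFun]

theorem eulerFun_qParam (z : ℍ) : eulerFun (𝕢 1 z) = ∏' n, (1 - eta_q n z) := by
  simp only [eulerFun, eta_q_eq_pow, Function.Periodic.qParam, Complex.ofReal_one, div_one]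

theorem exists_qParam_eq {q : ℂ} (hq : ‖q‖ < 1) (hq0 : q ≠ 0) : ∃ z : ℍ, 𝕢 1 z = q :=
  ⟨⟨_, Function.Periodic.im_invQParam_pos_of_norm_lt_one one_pos hq hq0⟩,
    Function.Periodic.qParam_right_inv one_ne_zero hq0⟩

theorem eulerFun_ne_zero {q : ℂ} (hq : ‖q‖ < 1) : eulerFun q ≠ 0 := by
  rcases eq_or_ne q 0 with rfl | hq0
  · simp [eulerFun_zero]
  · obtain ⟨z, rfl⟩ := exists_qParam_eq hq hq0
    rw [eulerFun_qParam]
    exact eta_tprod_ne_zero z.2

theorem discriminant_eq_qParam_mul (z : ℍ) : Δ z = 𝕢 1 z * eulerFun (𝕢 1 z) ^ 24 := by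
  rw [discriminant_eq_q_prod, eulerFun_qParam,
    (multipliableLocallyUniformlyOn_eta.multipliable z.2).tprod_pow]

/-- The cusp function of `E₄`. -/
noncomputable def e4Cusp : ℂ → ℂ := cuspFunction 1 E₄

theorem differentiableOn_e4Cusp : DifferentiableOn ℂ e4Cusp (Metric.ball (0 : ℂ) 1) :=
  fun _ hq => (ModularFormClass.differentiableAt_cuspFunction E₄ one_pos one_mem_strictPeriods_SL
    (mem_ball_zero_iff.mp hq)).differentiableWithinAt

theorem e4Cusp_qParam (z : ℍ) : e4Cusp (𝕢 1 z) = E₄ z :=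
  SlashInvariantFormClass.eq_cuspFunction E₄ z one_mem_strictPeriods_SL one_ne_zero

theorem taylorPS_e4Cusp :
    taylorPS e4Cusp = ModularCurve.eisenstein4.map (Int.castRingHom ℂ) := by
  ext m
  rw [e4Cusp, ← qExpansion_eq_taylorPS, E_qExpansion_coeff _ ⟨2, rfl⟩, PowerSeries.coeff_map,
    ModularCurve.eisenstein4, PowerSeries.coeff_mk]
  split_ifs with h
  · simp
  · have hb : bernoulli 4 = -1 / 30 := by
      rw [bernoulli_eq_bernoulli'_of_ne_one (by norm_num), bernoulli'_four]
    rw [hb, ArithmeticFunction.sigma_apply, eq_intCast]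
    push_cast
    ring

/-- The function `q ↦ q * j` on the unit disc. -/
noncomputable def jCusp (q : ℂ) : ℂ := e4Cusp q ^ 3 / eulerFun q ^ 24

theorem differentiableOn_jCusp : DifferentiableOn ℂ jCusp (Metric.ball (0 : ℂ) 1) :=
  (differentiableOn_e4Cusp.pow 3).div (differentiableOn_eulerFun.pow 24)
    fun _ hq => pow_ne_zero _ (eulerFun_ne_zero (mem_ball_zero_iff.mp hq))

theorem qParam_mul_jFun (z : ℍ) : 𝕢 1 z * jFun z = jCusp (𝕢 1 z) := by
  have h1 : 𝕢 1 z ≠ 0 := Function.Periodic.qParam_ne_zero _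
  have h2 : eulerFun (𝕢 1 z) ≠ 0 :=
    eulerFun_ne_zero (Function.Periodic.norm_qParam_lt_one one_pos z.im_pos)
  rw [jFun, jCusp, discriminant_eq_qParam_mul, e4Cusp_qParam]
  field_simp

theorem taylorPS_jCusp : taylorPS jCusp = ModularCurve.jNum.map (Int.castRingHom ℂ) := by
  have hE := analyticAt_zero_of_differentiableOn differentiableOn_e4Cusp
  have hU := analyticAt_zero_of_differentiableOn differentiableOn_eulerFun
  have hJ := analyticAt_zero_of_differentiableOn differentiableOn_jCusp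
  have h1 : jCusp * eulerFun ^ 24 =ᶠ[𝓝 0] e4Cusp ^ 3 := by
    filter_upwards [Metric.ball_mem_nhds (0 : ℂ) zero_lt_one] with q hq
    have h2 : eulerFun q ≠ 0 := eulerFun_ne_zero (mem_ball_zero_iff.mp hq)
    simp only [Pi.mul_apply, Pi.pow_apply, jCusp]
    field_simp
  have h3 := taylorPS_congr h1
  rw [taylorPS_mul hJ (hU.pow 24), taylorPS_pow hU, taylorPS_pow hE, taylorPS_eulerFun,
    taylorPS_e4Cusp] at h3
  have h4 := congrArg (PowerSeries.map (Int.castRingHom ℂ)) ModularCurve.dedekindEtaUnit_mul_inv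
  rw [map_mul, map_one, ModularCurve.dedekindEtaUnit, map_pow] at h4
  rw [ModularCurve.jNum, map_mul, map_pow, ← h3, mul_assoc, h4, mul_one]

/-- The `q`-expansion of `j`: `q * j(z) = ∑ c_n q^n` with `c_n` the coefficients of the formal
series `jNum` of the Prelude. -/
theorem hasSum_jFun (z : ℍ) :
    HasSum (fun n : ℕ => ((ModularCurve.jNum.coeff n : ℤ) : ℂ) * 𝕢 1 z ^ n) (𝕢 1 z * jFun z) := by
  have := hasSum_taylorPS differentiableOn_jCusp
    (Function.Periodic.norm_qParam_lt_one one_pos z.im_pos (h := 1))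
  rw [taylorPS_jCusp, ← qParam_mul_jFun] at this
  simpa using this

theorem jCusp_zero : jCusp 0 = 1 := by
  have := coeff_taylorPS jCusp 0
  rw [taylorPS_jCusp] at this
  simpa using this.symm

theorem tendsto_qParam_mul_jFun :
    Tendsto (fun z : ℍ => 𝕢 1 z * jFun z) atImInfty (𝓝 1) := by
  simp only [qParam_mul_jFun]
  have h1 : ContinuousAt jCusp 0 :=
    (analyticAt_zero_of_differentiableOn differentiableOn_jCusp).continuousAt
  have h2 := h1.tendsto.comp (qParam_tendsto_atImInfty one_pos)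
  rwa [jCusp_zero] at h2

end Fermat.Agent.Lib.AnalyticJ
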