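import Fermat.Agent.Lib.AnalyticJ.Basic

/-!
# Surjectivity of the analytic `j`-function
-/

set_option autoImplicit false

open Filter Topology UpperHalfPlane ModularForm EisensteinSeries MatrixGroups OnePoint
  SlashInvariantForm Asymptotics
open scoped Manifold

namespace Fermat.Agent.Lib.AnalyticJ

local notation "Δ" => ModularForm.discriminant

theorem tendsto_E_atImInfty {k : ℕ} (hk : 3 ≤ k) (hk2 : Even k) :
    Tendsto (E hk) atImInfty (𝓝 1) := by
  have h1 := ModularFormClass.analyticAt_cuspFunction_zero (E hk) one_pos one_mem_strictPeriods_SL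
  have h2 := h1.continuousAt.tendsto.comp (qParam_tendsto_atImInfty one_pos)
  have h3 : (cuspFunction 1 (E hk)) 0 = 1 := by
    have := E_qExpansion_coeff_zero hk hk2
    simpa [qExpansion_coeff] using this
  rw [h3] at h2
  refine h2.congr fun z => ?_
  exact SlashInvariantFormClass.eq_cuspFunction (E hk) z one_mem_strictPeriods_SL one_ne_zero

/-- the weight 12 form `E₄³ - c Δ` -/
noncomputable def e4CubeSub (c : ℂ) : ModularForm 𝒮ℒ 12 :=
  ModularForm.mcast (by decide) (E₄.pow 3) - c • (CuspForm.discriminant : ModularForm 𝒮ℒ 12)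

theorem e4CubeSub_apply (c : ℂ) (z : ℍ) : e4CubeSub c z = E₄ z ^ 3 - c * Δ z := by
  simp only [e4CubeSub, coe_mcast, ModularForm.coe_pow, sub_apply, Pi.pow_apply]
  rfl

theorem tendsto_e4CubeSub (c : ℂ) : Tendsto (e4CubeSub c) atImInfty (𝓝 1) := by
  have h1 := (tendsto_E_atImInfty (k := 4) (by norm_num) ⟨2, rfl⟩).pow 3
  have h2 : Tendsto Δ atImInfty (𝓝 0) := discriminant_isZeroAtImInfty
  have h3 := h1.sub (h2.const_mul c)
  simp only [one_pow, mul_zero, sub_zero] at h3
  exact h3.congr fun z => (e4CubeSub_apply c z).symm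

theorem inv_slash_eq {k : ℤ} (f : ModularForm 𝒮ℒ k) (γ : SL(2, ℤ)) :
    (fun z ↦ 1 / f z) ∣[0 - k] γ = fun z ↦ 1 / f z := by
  have hγ : (γ : GL (Fin 2) ℝ) ∈ 𝒮ℒ := ⟨γ, rfl⟩
  change ((1 : ℍ → ℂ) / ⇑f) ∣[0 - k] γ = (1 : ℍ → ℂ) / ⇑f
  rw [div_slash_SL2, SL_slash, SL_slash, SlashInvariantFormClass.slash_action_eq f _ hγ]
  congr 1
  exact ModularForm.is_invariant_one γ

/-- `j` is surjective. -/
theorem jFun_surjective (c : ℂ) : ∃ z : ℍ, jFun z = c := by
  by_contra hcon
  push Not at hcon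
  have hne : ∀ z, e4CubeSub c z ≠ 0 := by
    intro z hz
    apply hcon z
    rw [e4CubeSub_apply, sub_eq_zero] at hz
    rw [jFun, hz, mul_div_cancel_right₀ _ (discriminant_ne_zero z)]
  let g : ModularForm 𝒮ℒ (0 - 12) :=
    { toFun z := 1 / e4CubeSub c z
      slash_action_eq' := fun _ ⟨γ, hγ⟩ ↦ hγ ▸ inv_slash_eq (e4CubeSub c) γ
      holo' := (mdifferentiable_const (c := (1 : ℂ))).div (e4CubeSub c).holo' hne
      bdd_at_cusps' {x} hx := by
        rw [Subgroup.IsArithmetic.isCusp_iff_isCusp_SL2Z] at hx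
        rw [isBoundedAt_iff_forall_SL2Z hx]
        intro γ _
        rw [inv_slash_eq (e4CubeSub c) γ, IsBoundedAtImInfty, BoundedAtFilter]
        have := (tendsto_e4CubeSub c).inv₀ one_ne_zero
        simp only [one_div]
        exact this.isBigO_one ℝ }
  have hg := ModularFormClass.levelOne_neg_weight_eq_zero (by norm_num) g
  have := congrFun hg UpperHalfPlane.I
  have h2 : g UpperHalfPlane.I = 1 / e4CubeSub c UpperHalfPlane.I := rfl
  rw [h2] at this
  simp [hne] at this

end Fermat.Agent.Lib.AnalyticJ
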