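import Mathlib

/-!
# Taylor series at `0` as a `PowerSeries`
-/

set_option autoImplicit false

open Filter Topology

namespace Fermat.Agent.Lib.AnalyticJ

/-- The Taylor series of `G` at `0`, as a formal power series. -/
noncomputable def taylorPS (G : ℂ → ℂ) : PowerSeries ℂ :=
  .mk fun m ↦ (↑m.factorial)⁻¹ * iteratedDeriv m G 0

theorem coeff_taylorPS (G : ℂ → ℂ) (m : ℕ) :
    (taylorPS G).coeff m = (↑m.factorial)⁻¹ * iteratedDeriv m G 0 := by
  simp [taylorPS]

theorem qExpansion_eq_taylorPS (h : ℝ) (f : UpperHalfPlane → ℂ) :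
    UpperHalfPlane.qExpansion h f = taylorPS (UpperHalfPlane.cuspFunction h f) := rfl

theorem taylorPS_congr {F G : ℂ → ℂ} (h : F =ᶠ[𝓝 0] G) : taylorPS F = taylorPS G := by
  ext m
  rw [coeff_taylorPS, coeff_taylorPS, (h.iteratedDeriv_eq m)]

theorem taylorPS_mul {F G : ℂ → ℂ} (hF : AnalyticAt ℂ F 0) (hG : AnalyticAt ℂ G 0) :
    taylorPS (F * G) = taylorPS F * taylorPS G := by
  ext
  simp only [coeff_taylorPS,
    iteratedDeriv_mul hF.contDiffAt hG.contDiffAt, Finset.mul_sum, PowerSeries.coeff_mul,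
    Finset.Nat.sum_antidiagonal_eq_sum_range_succ_mk, Nat.succ_eq_add_one]
  refine Finset.sum_congr rfl fun i hi ↦ ?_
  rw [Nat.cast_choose _ (by grind)]
  field_simp [Nat.factorial_ne_zero]

theorem taylorPS_add {F G : ℂ → ℂ} (hF : AnalyticAt ℂ F 0) (hG : AnalyticAt ℂ G 0) :
    taylorPS (F + G) = taylorPS F + taylorPS G := by
  ext m
  simp [coeff_taylorPS, iteratedDeriv_add hF.contDiffAt hG.contDiffAt, mul_add]

theorem taylorPS_const (c : ℂ) : taylorPS (fun _ => c) = PowerSeries.C c := by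
  ext m
  have h2 : iteratedDeriv m (fun _ : ℂ => c) 0 = if m = 0 then c else 0 := by
    simpa [ite_apply] using! (iteratedDeriv_const (n := m) (c := c) (x := (0 : ℂ)))
  rw [coeff_taylorPS, h2, PowerSeries.coeff_C]
  split_ifs with h <;> simp [h]

theorem taylorPS_one : taylorPS (1 : ℂ → ℂ) = 1 := by
  have := taylorPS_const 1
  rw [map_one] at this
  exact this

theorem taylorPS_pow {F : ℂ → ℂ} (hF : AnalyticAt ℂ F 0) (n : ℕ) :
    taylorPS (F ^ n) = taylorPS F ^ n := by
  induction n with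
  | zero => simpa using taylorPS_one
  | succ n ih => rw [pow_succ, pow_succ, taylorPS_mul (hF.pow n) hF, ih]

theorem iteratedDeriv_polynomial (p : Polynomial ℂ) (m : ℕ) :
    iteratedDeriv m (fun q => p.eval q) = fun q => (Polynomial.derivative^[m] p).eval q := by
  induction m with
  | zero => simp
  | succ m ih =>
    rw [iteratedDeriv_succ, ih, Function.iterate_succ_apply']
    ext q
    exact Polynomial.deriv _

theorem taylorPS_polynomial (p : Polynomial ℂ) :
    taylorPS (fun q => p.eval q) = (p : PowerSeries ℂ) := by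
  ext m
  rw [coeff_taylorPS, Polynomial.coeff_coe, iteratedDeriv_polynomial]
  beta_reduce
  rw [← Polynomial.coeff_zero_eq_eval_zero, Polynomial.coeff_iterate_derivative]
  simp [Nat.descFactorial_self, Nat.factorial_ne_zero]

theorem taylorPS_id : taylorPS (fun q => q) = PowerSeries.X := by
  have := taylorPS_polynomial Polynomial.X
  simpa using this

/-- Taylor coefficients are continuous for locally uniform convergence. -/
theorem tendsto_iteratedDeriv {ι : Type*} {φ : Filter ι} {F : ι → ℂ → ℂ} {G : ℂ → ℂ} {U : Set ℂ}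
    (hU : IsOpen U) (hF : ∀ᶠ n in φ, DifferentiableOn ℂ (F n) U)
    (h : TendstoLocallyUniformlyOn F G φ U) (m : ℕ) :
    TendstoLocallyUniformlyOn (fun n => iteratedDeriv m (F n)) (iteratedDeriv m G) φ U ∧
      ∀ᶠ n in φ, DifferentiableOn ℂ (iteratedDeriv m (F n)) U := by
  induction m with
  | zero => simpa [iteratedDeriv_zero] using ⟨h, hF⟩
  | succ m ih =>
    obtain ⟨h1, h2⟩ := ih
    refine ⟨?_, ?_⟩
    · have := h1.deriv h2 hU
      simpa [iteratedDeriv_succ, Function.comp_def] using this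
    · filter_upwards [h2] with n hn
      rw [iteratedDeriv_succ]
      exact hn.deriv hU

theorem tendsto_coeff_taylorPS {ι : Type*} {φ : Filter ι} {F : ι → ℂ → ℂ} {G : ℂ → ℂ} {U : Set ℂ}
    (hU : IsOpen U) (h0 : (0 : ℂ) ∈ U) (hF : ∀ᶠ n in φ, DifferentiableOn ℂ (F n) U)
    (h : TendstoLocallyUniformlyOn F G φ U) (m : ℕ) :
    Tendsto (fun n => (taylorPS (F n)).coeff m) φ (𝓝 ((taylorPS G).coeff m)) := by
  simp only [coeff_taylorPS]
  exact ((tendsto_iteratedDeriv hU hF h m).1.tendsto_at h0).const_mul _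

theorem hasSum_taylorPS {G : ℂ → ℂ} (hG : DifferentiableOn ℂ G (Metric.ball 0 1)) {q : ℂ}
    (hq : ‖q‖ < 1) : HasSum (fun m : ℕ ↦ (taylorPS G).coeff m * q ^ m) (G q) := by
  convert!
    Complex.hasSum_taylorSeries_on_ball hG
      (by simpa using hq) using
    2 with m
  grind [coeff_taylorPS, sub_zero, smul_eq_mul]

theorem analyticAt_zero_of_differentiableOn {G : ℂ → ℂ}
    (hG : DifferentiableOn ℂ G (Metric.ball 0 1)) : AnalyticAt ℂ G 0 :=
  hG.analyticAt (Metric.ball_mem_nhds (0 : ℂ) zero_lt_one)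

theorem eqOn_zero_of_taylorPS_eq_zero {G : ℂ → ℂ} (hG : DifferentiableOn ℂ G (Metric.ball 0 1))
    (h : taylorPS G = 0) : Set.EqOn G 0 (Metric.ball 0 1) := by
  intro q hq
  have := hasSum_taylorPS hG (q := q) (by simpa using hq)
  simp only [h, map_zero, zero_mul] at this
  exact this.unique hasSum_zero

end Fermat.Agent.Lib.AnalyticJ
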